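import Fermat.Agent.HopfOrder.Key

/-!
# The key lemma, with more information
-/

set_option autoImplicit false

open scoped TensorProduct

namespace Fermat.Agent.HopfOrder

open PoleBasis

variable {R B : Type*} [CommRing R] [CommRing B] [Algebra R B] (P : PoleBasis R B)
variable {T κ : Type*} [CommRing T] [Algebra R T] [Field κ] [Algebra R κ]
  (φ : T →ₐ[R] κ)

theorem key_strong [IsLocalRing T] (hφ : Function.Surjective φ) [IsDedekindDomain (κ ⊗[R] B)]
    [Infinite κ] {J Q : Ideal (T ⊗[R] B)} {dJ dQ : ℕ} (hJ : IsRel T J dJ) (hQ : IsRel T Q dQ)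
    (D3 : Ideal (κ ⊗[R] B)) (hD3 : IsRel κ D3 P.g) (hns : Nonsp (P.baseChange κ) D3)
    (hcop : Q.map (sp B φ) ⊔ D3 = ⊤) {α β : κ ⊗[R] B} (hα : α ≠ 0) (hβ : β ≠ 0)
    (hcls : Ideal.span {α} * J.map (sp B φ) = Ideal.span {β} * (Q.map (sp B φ) * D3)) :
    ∃ (I3 D' : Ideal (T ⊗[R] B)) (s s' : T ⊗[R] B) (n n' d' : ℕ), IsRel T I3 P.g ∧
      I3.map (sp B φ) = D3 ∧ IsRel T D' d' ∧ J * D' = Ideal.span {s} ∧
      D' * Q * I3 = Ideal.span {s'} ∧ IsRel T (Ideal.span {s}) n ∧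
      IsRel T (Ideal.span {s'}) n' ∧ IsRel T (D' * Q) (d' + dQ) ∧
      s ∈ (P.baseChange T).fil n ∧ IsUnit ((P.baseChange T).lc n s) ∧
      s' ∈ (P.baseChange T).fil n' ∧ IsUnit ((P.baseChange T).lc n' s') ∧
      dJ + d' = n ∧ d' + dQ + P.g = n' ∧ P.m0 < n ∧ P.m0 < n' := by
  have hker := ker_le_jacobson φ
  have hsurj := sp_surjective (B := B) φ hφ
  let Pκ := P.baseChange κ
  have hJκ : IsRel κ (J.map (sp B φ)) dJ := hJ.baseChange P φ
  have hQκ : IsRel κ (Q.map (sp B φ)) dQ := hQ.baseChange P φ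
  have hJ0 := hJκ.ne_bot Pκ
  have hQ0 := hQκ.ne_bot Pκ
  have hD0 := hD3.ne_bot Pκ
  have hprod : J.map (sp B φ) * Q.map (sp B φ) * D3 ≠ ⊥ :=
    mul_ne_zero (mul_ne_zero hJ0 hQ0) hD0
  obtain ⟨N0, hN0⟩ := exists_generic Pκ hJ0 hprod
  obtain ⟨n0, hn0⟩ := exists_fil_sup Pκ hJκ
  let n := N0 + n0 + P.m0 + dJ + P.m0 + 2
  obtain ⟨sb, hsb, hsbl, D, hD, hDc⟩ := hN0 n (by omega)
  have hDJ : J.map (sp B φ) ⊔ D = ⊤ := by
    rw [eq_top_iff, ← hDc]
    exact sup_le le_sup_right ((Ideal.mul_le_left.trans Ideal.mul_le_left).trans le_sup_left)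
  have hDQ : D ⊔ Q.map (sp B φ) = ⊤ := by
    rw [eq_top_iff, ← hDc]
    exact sup_le le_sup_left ((Ideal.mul_le_left.trans Ideal.mul_le_right).trans le_sup_right)
  have hDD : D ⊔ D3 = ⊤ := by
    rw [eq_top_iff, ← hDc]
    exact sup_le le_sup_left (Ideal.mul_le_right.trans le_sup_right)
  have hsbJ : sb ∈ J.map (sp B φ) := by
    have : sb ∈ J.map (sp B φ) * D := by rw [hD]; exact Ideal.mem_span_singleton_self _
    exact Ideal.mul_le_left this
  obtain ⟨s, hs, hsJ, rfl⟩ := exists_lift_mem P φ hφ hker hJ n (hn0 n (by omega)) hsb hsbJ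
  have hsl : IsUnit ((P.baseChange T).lc n s) := by
    apply isUnit_of_map_ne_zero φ hφ
    rw [← P.lc_sp]; exact hsbl
  have hsrel : IsRel T (Ideal.span {s}) n := isRel_span_singleton P φ hφ (by omega) hs hsl
  obtain ⟨D', d', hdd, hD', hJD', -, hD'm⟩ := exists_residual P φ hφ hJ hsrel hsJ D hD hDJ
  -- the second step
  have hD'Q : D' ⊔ Q = ⊤ := by
    apply sup_eq_top_of_sp P φ hφ hker hD'
    rw [hD'm]; exact hDQ
  have hE : IsRel T (D' * Q) (d' + dQ) := hD'.mul hQ hD'Q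
  have hEm : (D' * Q).map (sp B φ) = D * Q.map (sp B φ) := by rw [Ideal.map_mul, hD'm]
  have hDκ : IsRel κ D d' := hD'm ▸ hD'.baseChange P φ
  have hD0' := hDκ.ne_bot Pκ
  -- the generator
  have h1 : Ideal.span {α * sp B φ s} = Ideal.span {β} * (D * Q.map (sp B φ) * D3) := by
    rw [← Ideal.span_singleton_mul_span_singleton, ← hD]
    calc Ideal.span {α} * (J.map (sp B φ) * D) = (Ideal.span {α} * J.map (sp B φ)) * D := by ring
      _ = _ := by rw [hcls]; ring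
  have h2 : α * sp B φ s ∈ Ideal.span {β} * (D * Q.map (sp B φ) * D3) := by
    rw [← h1]; exact Ideal.mem_span_singleton_self _
  obtain ⟨u, hu, hβu⟩ := Ideal.mem_span_singleton_mul.mp h2
  have h3 : Ideal.span {u} = D * Q.map (sp B φ) * D3 := by
    have h4 : Ideal.span {β} * Ideal.span {u} = Ideal.span {β} * (D * Q.map (sp B φ) * D3) := by
      rw [Ideal.span_singleton_mul_span_singleton, hβu, h1]
    exact mul_left_cancel₀ (a := Ideal.span {β}) (span_ne_bot hβ) h4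
  have hu0 : u ≠ 0 := by
    rintro rfl
    rw [Ideal.span_singleton_eq_bot.mpr rfl] at h3
    exact mul_ne_zero (mul_ne_zero hD0' hQ0) hD0 h3.symm
  have hEκ : IsRel κ (D * Q.map (sp B φ)) (d' + dQ) := hEm ▸ hE.baseChange P φ
  have hurel : IsRel κ (Ideal.span {u}) (d' + dQ + P.g) := by
    rw [h3]
    exact hEκ.mul_dedekind hD3 (mul_ne_zero hD0' hQ0) hD0
  let n' := d' + dQ + P.g
  have hn' : P.m0 < n' := by
    have : P.m0 < d' := by omega
    omega
  have hone : ∀ x ∈ D * Q.map (sp B φ), x ∈ Pκ.fil n' → ∃ c : κ, x = c • u := by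
    intro x hx hxn
    refine hns (D * Q.map (sp B φ)) u n' hn'.le hu0 ?_ hurel x hx hxn
    rw [h3]; ring
  have hlift := fil_sup_of_one_dim Pκ hEκ hn'.le rfl hone
  have huE : u ∈ D * Q.map (sp B φ) := Ideal.mul_le_left hu
  have hun : u ∈ Pκ.fil n' := mem_fil_of_degree_le Pκ hn'.le hurel le_rfl
  obtain ⟨s', hs', hs'E, rfl⟩ := exists_lift_mem P φ hφ hker hE n'
    (by rw [hEm]; exact hlift) hun (by rw [hEm]; exact huE)
  have hs'l : IsUnit ((P.baseChange T).lc n' s') := by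
    apply isUnit_of_map_ne_zero φ hφ
    rw [← P.lc_sp]
    exact lc_ne_zero_of_degree_eq Pκ hn' hu0 hurel
  have hs'rel : IsRel T (Ideal.span {s'}) n' := isRel_span_singleton P φ hφ hn' hs' hs'l
  obtain ⟨I3, d3, hd3, hI3, hEI3, -, hI3m⟩ := exists_residual P φ hφ hE hs'rel hs'E D3
    (by rw [hEm, h3]) (by rw [hEm]; exact sup_mul_eq_top hDD hcop)
  have hd3' : d3 = P.g := by omega
  subst hd3'
  exact ⟨I3, D', s, s', n, n', d', hI3, hI3m, hD', hJD', hEI3, hsrel, hs'rel, hE, hs, hsl,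
    hs', hs'l, hdd, rfl, by omega, hn'⟩

end Fermat.Agent.HopfOrder
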