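import Fermat.Agent.HopfOrder.Special

/-!
# Uniqueness of nonspecial divisors in their linear equivalence class, over a local ring
-/

set_option autoImplicit false

open scoped TensorProduct

namespace Fermat.Agent.HopfOrder

open PoleBasis

variable {R B : Type*} [CommRing R] [CommRing B] [Algebra R B] (P : PoleBasis R B)
variable {T κ : Type*} [CommRing T] [Algebra R T] [Field κ] [Algebra R κ]
  (φ : T →ₐ[R] κ) [IsLocalRing T] (hφ : Function.Surjective φ) [IsDedekindDomain (κ ⊗[R] B)]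

include P hφ in
omit [IsDedekindDomain (κ ⊗[R] B)] in
/-- A section with unit leading coefficient is a nonzerodivisor. -/
lemma eq_zero_of_mul [IsDomain (κ ⊗[R] B)] {n : ℕ} (hn : P.m0 < n) {s : T ⊗[R] B}
    (hs : s ∈ (P.baseChange T).fil n) (hu : IsUnit ((P.baseChange T).lc n s)) {x : T ⊗[R] B}
    (hx : s * x = 0) : x = 0 := by
  have hne : sp B φ s ≠ 0 := by
    intro h0
    have h1 := P.lc_sp φ n s
    rw [h0, map_zero] at h1
    exact (hu.map φ).ne_zero h1.symm
  obtain ⟨r, hr⟩ := exists_retraction P φ hφ hne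
  refine mul_eq_zero_of_lc (P.baseChange T) hn hs hu (fun y hy h0 => ?_) hx
  have h1 := hr ⟨y, hy⟩
  rw [show s * ((⟨y, hy⟩ : (P.baseChange T).fil P.m0) : T ⊗[R] B) = 0 from h0, map_zero] at h1
  exact (congrArg Subtype.val h1).symm

include P hφ in
omit [IsDedekindDomain (κ ⊗[R] B)] in
/-- Cancellation of a principal divisor. -/
lemma cancel_span [IsDomain (κ ⊗[R] B)] {n : ℕ} (hn : P.m0 < n) {s : T ⊗[R] B}
    (hs : s ∈ (P.baseChange T).fil n) (hu : IsUnit ((P.baseChange T).lc n s))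
    {I I' : Ideal (T ⊗[R] B)} (h : Ideal.span {s} * I = Ideal.span {s} * I') : I = I' := by
  have key : ∀ I I' : Ideal (T ⊗[R] B), Ideal.span {s} * I = Ideal.span {s} * I' → I ≤ I' := by
    intro I I' h x hx
    have h1 : s * x ∈ Ideal.span {s} * I' := by
      rw [← h]; exact Ideal.mul_mem_mul (Ideal.mem_span_singleton_self s) hx
    obtain ⟨y, hy, hxy⟩ := Ideal.mem_span_singleton_mul.mp h1
    have h2 : s * (y - x) = 0 := by rw [mul_sub, hxy, sub_self]
    have h3 := eq_zero_of_mul P φ hφ hn hs hu h2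
    rw [← sub_eq_zero.mp h3]
    exact hy
  exact le_antisymm (key I I' h) (key I' I h.symm)

include hφ in
/-- Sections of the complementary divisor are multiples of the given one. -/
theorem exists_smul_of_mem {Z : Ideal (T ⊗[R] B)} {dZ n : ℕ} (hZ : IsRel T Z dZ)
    (hn : P.m0 < n) (hdn : dZ + P.g = n) {s : T ⊗[R] B} (hs : s ∈ (P.baseChange T).fil n)
    (hu : IsUnit ((P.baseChange T).lc n s)) (hsZ : s ∈ Z) {Iκ : Ideal (κ ⊗[R] B)}
    (hns : Nonsp (P.baseChange κ) Iκ) (hI : Iκ * Z.map (sp B φ) = Ideal.span {sp B φ s})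
    {x : T ⊗[R] B} (hxZ : x ∈ Z) (hx : x ∈ (P.baseChange T).fil n) : ∃ c : T, x = c • s := by
  have hker := ker_le_jacobson φ
  let Pκ := P.baseChange κ
  have hsκl : Pκ.lc n (sp B φ s) ≠ 0 := by
    rw [P.lc_sp]
    exact (hu.map φ).ne_zero
  have hsκ : sp B φ s ∈ Pκ.fil n := P.sp_mem_fil φ hs
  have hsκ0 : sp B φ s ≠ 0 := by
    intro h0
    rw [h0, map_zero] at hsκl
    exact hsκl rfl
  have hsrel : IsRel κ (Ideal.span {sp B φ s}) n := isRel_of_exact Pκ hn hsκ hsκl
  have hone : ∀ y ∈ Z.map (sp B φ), y ∈ Pκ.fil n → ∃ c : κ, y = c • sp B φ s :=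
    hns (Z.map (sp B φ)) (sp B φ s) n hn.le hsκ0 hI hsrel
  have hZκ : IsRel κ (Z.map (sp B φ)) dZ := hZ.baseChange P φ
  have hsup := fil_sup_of_one_dim Pκ hZκ hn.le hdn hone
  have hfinZ := hZ.finite
  have hfreeZ := hZ.free
  -- `fil n` surjects onto the quotient
  let Fn := (P.baseChange T).fil n
  have htop : Fn ⊔ Z.restrictScalars T = ⊤ := by
    refine eq_top_of_sp P φ hker (J := Z) _ le_sup_right fun x => ?_
    obtain ⟨z, hz, hxz⟩ := hsup (sp B φ x)
    obtain ⟨z', hz', rfl⟩ := P.exists_fil_lift φ hφ hz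
    obtain ⟨j, hj, hjx⟩ := (Ideal.mem_map_iff_of_surjective _ (sp_surjective φ hφ)).mp hxz
    refine ⟨z' + j, Submodule.add_mem_sup hz' hj, ?_⟩
    rw [map_add, hjx]; ring
  let q : Fn →ₗ[T] (T ⊗[R] B ⧸ Z) := (Ideal.Quotient.mkₐ T Z).toLinearMap ∘ₗ Fn.subtype
  have hq : ∀ y : Fn, q y = Ideal.Quotient.mk Z (y : T ⊗[R] B) := fun _ => rfl
  have hqs : Function.Surjective q := by
    intro w
    obtain ⟨w, rfl⟩ := Ideal.Quotient.mk_surjective w
    have hw : w ∈ Fn ⊔ Z.restrictScalars T := by rw [htop]; trivial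
    obtain ⟨y, hy, z, hz, rfl⟩ := Submodule.mem_sup.mp hw
    refine ⟨⟨y, hy⟩, ?_⟩
    rw [hq, map_add, Ideal.Quotient.eq_zero_iff_mem.mpr (show z ∈ Z from hz), add_zero]
  obtain ⟨σ, hσ⟩ := Module.projective_lifting_property q LinearMap.id hqs
  let W : Submodule T Fn := LinearMap.ker q
  let p : Fn →ₗ[T] Fn := LinearMap.id - σ ∘ₗ q
  have hp : ∀ y, p y ∈ W := by
    intro y
    have h1 : q (σ (q y)) = q y := LinearMap.congr_fun hσ (q y)
    have h2 : q (p y) = q y - q (σ (q y)) := map_sub q y (σ (q y))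
    rw [LinearMap.mem_ker, h2, h1, sub_self]
  have hp' : ∀ y ∈ W, p y = y := by
    intro y hy
    rw [LinearMap.sub_apply, LinearMap.comp_apply, LinearMap.mem_ker.mp hy]; simp
  have hWp : W = LinearMap.range p := by
    ext y
    exact ⟨fun hy => ⟨y, hp' y hy⟩, by rintro ⟨z, rfl⟩; exact hp z⟩
  have hWfg : W.FG := by
    rw [hWp, LinearMap.range_eq_map]
    exact Module.Finite.fg_top.map p
  have hsW : (⟨s, hs⟩ : Fn) ∈ W := by
    rw [LinearMap.mem_ker, hq, Ideal.Quotient.eq_zero_iff_mem]; exact hsZ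
  have hWle : W ≤ Submodule.span T {(⟨s, hs⟩ : Fn)} := by
    apply Submodule.le_of_le_smul_of_le_jacobson_bot (I := RingHom.ker φ.toRingHom) hWfg hker
    intro y hy
    have hyZ : (y : T ⊗[R] B) ∈ Z := by
      rw [LinearMap.mem_ker, hq, Ideal.Quotient.eq_zero_iff_mem] at hy; exact hy
    obtain ⟨cb, hcb⟩ := hone (sp B φ y) (Ideal.mem_map_of_mem _ hyZ) (P.sp_mem_fil φ y.2)
    obtain ⟨c, rfl⟩ := hφ cb
    have h1 : sp B φ ((y - c • (⟨s, hs⟩ : Fn) : Fn) : T ⊗[R] B) = 0 := by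
      push_cast
      rw [map_sub, sp_smul, hcb, sub_self]
    have h2 := P.mem_smul_fil_of_sp_eq_zero φ (y - c • (⟨s, hs⟩ : Fn) : Fn).2 h1
    have h3 : (y - c • (⟨s, hs⟩ : Fn) : Fn) ∈ (RingHom.ker φ.toRingHom) • (⊤ : Submodule T Fn) := by
      have h4 : (RingHom.ker φ.toRingHom) • Fn =
          Submodule.map Fn.subtype ((RingHom.ker φ.toRingHom) • (⊤ : Submodule T Fn)) := by
        rw [Submodule.map_smul'', Submodule.map_subtype_top]
      rw [h4] at h2
      obtain ⟨z, hz, hzy⟩ := h2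
      have : z = y - c • (⟨s, hs⟩ : Fn) := Subtype.ext hzy
      rwa [this] at hz
    have h5 : (y - c • (⟨s, hs⟩ : Fn) : Fn) ∈ W :=
      Submodule.sub_mem _ hy (Submodule.smul_mem _ _ hsW)
    have h6 := Submodule.mem_map_of_mem (f := p) h3
    rw [hp' _ h5, Submodule.map_smul'', Submodule.map_top, ← hWp] at h6
    have h7 : y = c • (⟨s, hs⟩ : Fn) + (y - c • (⟨s, hs⟩ : Fn)) := by abel
    rw [h7]
    exact Submodule.add_mem_sup (Submodule.smul_mem _ _ (Submodule.mem_span_singleton_self _)) h6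
  have hxW : (⟨x, hx⟩ : Fn) ∈ W := by
    rw [LinearMap.mem_ker, hq, Ideal.Quotient.eq_zero_iff_mem]; exact hxZ
  obtain ⟨c, hc⟩ := Submodule.mem_span_singleton.mp (hWle hxW)
  exact ⟨c, (congrArg Subtype.val hc).symm⟩

include hφ in
/-- **Uniqueness** of nonspecial divisors in their class, over a local ring. -/
theorem uniq_local {I I' Z : Ideal (T ⊗[R] B)} {dZ n : ℕ} (hZ : IsRel T Z dZ)
    (hn : P.m0 < n) (hdn : dZ + P.g = n) {s s' : T ⊗[R] B} (hs : s ∈ (P.baseChange T).fil n)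
    (hu : IsUnit ((P.baseChange T).lc n s)) (hs' : s' ∈ (P.baseChange T).fil n)
    (hu' : IsUnit ((P.baseChange T).lc n s')) (hI : I * Z = Ideal.span {s})
    (hI' : I' * Z = Ideal.span {s'}) (hns : Nonsp (P.baseChange κ) (I.map (sp B φ))) : I = I' := by
  have hsZ : s ∈ Z := by
    have : s ∈ I * Z := by rw [hI]; exact Ideal.mem_span_singleton_self s
    exact Ideal.mul_le_right this
  have hsZ' : s' ∈ Z := by
    have : s' ∈ I' * Z := by rw [hI']; exact Ideal.mem_span_singleton_self s'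
    exact Ideal.mul_le_right this
  have hIm : I.map (sp B φ) * Z.map (sp B φ) = Ideal.span {sp B φ s} := by
    rw [← Ideal.map_mul, hI, map_span_sp]
  obtain ⟨c, hc⟩ := exists_smul_of_mem (Iκ := I.map (sp B φ)) P φ hφ hZ hn hdn hs hu hsZ hns
    hIm hsZ' hs'
  have hcu : IsUnit c := by
    rw [hc, map_smul, smul_eq_mul] at hu'
    exact isUnit_of_mul_isUnit_left hu'
  have hspan : Ideal.span {s'} = Ideal.span {s} := by
    rw [hc, Algebra.smul_def]
    exact Ideal.span_singleton_mul_left_unit (hcu.map (algebraMap T (T ⊗[R] B))) s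
  apply cancel_span P φ hφ hn hs hu
  calc Ideal.span {s} * I = (I * Z) * I := by rw [hI]
    _ = Ideal.span {s'} * I := by rw [hI, hspan]
    _ = (I' * Z) * I := by rw [hI']
    _ = (I * Z) * I' := by ring
    _ = Ideal.span {s} * I' := by rw [hI]

end Fermat.Agent.HopfOrder
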