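import Fermat.Agent.HopfOrder.Translate
import Fermat.Agent.HopfRes.Uniq
import Fermat.Agent.HopfRes.Key2

/-!
# Translations by elements with trivial reduction are trivial modulo the maximal ideal
-/

set_option autoImplicit false

open scoped TensorProduct

namespace Fermat.Agent.HopfOrder

open PoleBasis

section Field

variable {K C : Type*} [Field K] [CommRing C] [Algebra K C] [IsDedekindDomain C]
  (P : PoleBasis K C)

include P in
/-- Linearly equivalent ideals of the same degree are related by functions with the same, large,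
exact pole order. -/
lemma exists_lin_exact {Y1 Y2 : Ideal C} {d : ℕ} (h1 : IsRel K Y1 d) (h2 : IsRel K Y2 d)
    (h : Lin Y1 Y2) : ∃ (α β : C) (a : ℕ), P.m0 < a ∧ α ∈ P.fil a ∧ P.lc a α ≠ 0 ∧ β ∈ P.fil a ∧
      P.lc a β ≠ 0 ∧ Ideal.span {α} * Y1 = Ideal.span {β} * Y2 := by
  obtain ⟨α, β, hα, hβ, hab⟩ := h
  have hY1 := h1.ne_bot P
  have hY2 := h2.ne_bot P
  have hg := P.hg
  let γ : C := P.b (P.m0 + 1 - P.g)
  have hγ : γ ∈ P.fil (P.m0 + 1) := P.b_mem_fil (by omega)
  have hγl : P.lc (P.m0 + 1) γ ≠ 0 := by rw [P.lc_b]; exact one_ne_zero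
  have hγrel := isRel_of_exact P (by omega) hγ hγl
  have hγ0 : γ ≠ 0 := b_ne_zero P _
  obtain ⟨a, ha⟩ := exists_isRel P (span_ne_bot hα)
  obtain ⟨b, hb⟩ := exists_isRel P (span_ne_bot hβ)
  have hab' : a = b := by
    have e1 := ha.mul_dedekind h1 (span_ne_bot hα) hY1
    have e2 := hb.mul_dedekind h2 (span_ne_bot hβ) hY2
    rw [hab] at e1
    have := e1.degree_unique e2
    omega
  subst hab'
  have ha' := ha.mul_dedekind hγrel (span_ne_bot hα) (span_ne_bot hγ0)
  have hb' := hb.mul_dedekind hγrel (span_ne_bot hβ) (span_ne_bot hγ0)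
  rw [Ideal.span_singleton_mul_span_singleton] at ha' hb'
  refine ⟨α * γ, β * γ, a + (P.m0 + 1), by omega,
    mem_fil_of_degree_le P (by omega) ha' le_rfl,
    lc_ne_zero_of_degree_eq P (by omega) (mul_ne_zero hα hγ0) ha',
    mem_fil_of_degree_le P (by omega) hb' le_rfl,
    lc_ne_zero_of_degree_eq P (by omega) (mul_ne_zero hβ hγ0) hb', ?_⟩
  rw [← Ideal.span_singleton_mul_span_singleton, ← Ideal.span_singleton_mul_span_singleton]
  calc Ideal.span {α} * Ideal.span {γ} * Y1 = Ideal.span {γ} * (Ideal.span {α} * Y1) := by ring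
    _ = Ideal.span {γ} * (Ideal.span {β} * Y2) := by rw [hab]
    _ = _ := by ring

end Field

variable {R B : Type*} [CommRing R] [CommRing B] [Algebra R B] (P : PoleBasis R B)

section Coord

variable {T T' : Type*} [CommRing T] [Algebra R T] [CommRing T'] [Algebra R T']
  (ψ : T →ₐ[R] T') {I I' : Ideal (T ⊗[R] B)} {d : ℕ}

include P in
/-- Coordinates only depend on the ideal, after base change. -/
lemma IsCoord.residual {S : Fin d → T ⊗[R] B} {p p' : T ⊗[R] B →ₗ[T] (Fin d → T)}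
    (h : IsCoord I S p) (h' : IsCoord I' S p') (hI : I.map (sp B ψ) = I'.map (sp B ψ))
    (z : T ⊗[R] B) (j : Fin d) : ψ (p z j) = ψ (p' z j) := by
  obtain ⟨p1, hs1, hk1, h1⟩ := exists_coord_baseChange P ψ p h.surjective h.ker
  have e1 : IsCoord (I.map (sp B ψ)) (fun i => sp B ψ (S i)) p1 := by
    refine ⟨hk1, fun i => ?_⟩
    funext j
    rw [h1, h.map_S]
    by_cases hij : j = i
    · subst hij; simp
    · rw [Pi.single_eq_of_ne hij, Pi.single_eq_of_ne hij, map_zero]
  rw [← h1]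
  rw [hI] at e1
  have e2 : I'.map (sp B ψ) = I'.map (sp B ψ) := rfl
  rw [h'.baseChange P ψ e1 e2]

end Coord

section Compare

variable {T κ : Type*} [CommRing T] [Algebra R T] [Field κ] [Algebra R κ]
  (φ : T →ₐ[R] κ) [IsLocalRing T] (hφ : Function.Surjective φ) [IsDedekindDomain (κ ⊗[R] B)]
  (ck : κ →ₐ[R] T)

include P hφ in
/-- Comparison of two solutions of a moving problem, over a local `κ`-algebra. -/
theorem eq_of_lin_const {IT I3 D' : Ideal (T ⊗[R] B)} {Y1 Y2 : Ideal (κ ⊗[R] B)} {d d' n : ℕ}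
    (hY1 : IsRel κ Y1 d) (hY2 : IsRel κ Y2 d) (hY : Lin Y1 Y2)
    (hE : IsRel T (D' * Y2.map (sp B ck)) (d' + d)) (hn : P.m0 < n) (hdn : d' + d + P.g = n)
    {s s' : T ⊗[R] B}
    (hs : s ∈ (P.baseChange T).fil n) (hu : IsUnit ((P.baseChange T).lc n s))
    (hs' : s' ∈ (P.baseChange T).fil n) (hu' : IsUnit ((P.baseChange T).lc n s'))
    (h1 : IT * Y1.map (sp B ck) * D' = Ideal.span {s})
    (h2 : D' * Y2.map (sp B ck) * I3 = Ideal.span {s'})
    (hns : Nonsp (P.baseChange κ) (IT.map (sp B φ))) : I3 = IT := by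
  obtain ⟨α, β, a, ha, hα, hαl, hβ, hβl, hab⟩ := exists_lin_exact (P.baseChange κ) hY1 hY2 hY
  have ha' : P.m0 < a := ha
  set α' := sp B ck α with hα'
  set β' := sp B ck β with hβ'
  have hα'f : α' ∈ (P.baseChange T).fil a := P.sp_mem_fil ck hα
  have hβ'f : β' ∈ (P.baseChange T).fil a := P.sp_mem_fil ck hβ
  have hα'u : IsUnit ((P.baseChange T).lc a α') := by
    rw [hα', P.lc_sp]
    exact (isUnit_iff_ne_zero.mpr hαl).map ck
  have hβ'u : IsUnit ((P.baseChange T).lc a β') := by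
    rw [hβ', P.lc_sp]
    exact (isUnit_iff_ne_zero.mpr hβl).map ck
  have hab' : Ideal.span {α'} * Y1.map (sp B ck) = Ideal.span {β'} * Y2.map (sp B ck) := by
    have := congrArg (Ideal.map (sp B ck)) hab
    rwa [Ideal.map_mul, Ideal.map_mul, map_span_sp, map_span_sp] at this
  set Z := D' * Y2.map (sp B ck) with hZ
  have h3 : Ideal.span {α' * s} = Ideal.span {β'} * (IT * Z) := by
    rw [← Ideal.span_singleton_mul_span_singleton, ← h1]
    calc Ideal.span {α'} * (IT * Y1.map (sp B ck) * D')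
        = (Ideal.span {α'} * Y1.map (sp B ck)) * (IT * D') := by ring
      _ = (Ideal.span {β'} * Y2.map (sp B ck)) * (IT * D') := by rw [hab']
      _ = _ := by rw [hZ]; ring
  have h4 : α' * s ∈ Ideal.span {β'} * (IT * Z) := by
    rw [← h3]; exact Ideal.mem_span_singleton_self _
  obtain ⟨s2, hs2, hβs⟩ := Ideal.mem_span_singleton_mul.mp h4
  have hs2f : s2 ∈ (P.baseChange T).fil n := by
    apply mem_fil_of_mul_mem (P.baseChange T) ha' hβ'f hβ'u hn.le
    rw [hβs, add_comm]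
    exact (P.baseChange T).mul_mem_fil ha'.le hn.le hα'f hs
  have hs2u : IsUnit ((P.baseChange T).lc n s2) := by
    have e1 := (P.baseChange T).lc_mul ha' hn hβ'f hs2f
    have e2 := (P.baseChange T).lc_mul ha' hn hα'f hs
    rw [hβs, e2] at e1
    exact isUnit_of_mul_isUnit_right (e1 ▸ hα'u.mul hu)
  have h5 : IT * Z = Ideal.span {s2} := by
    apply cancel_span P φ hφ ha' hβ'f hβ'u
    rw [← h3, Ideal.span_singleton_mul_span_singleton, hβs]
  refine (uniq_local P φ hφ hE hn hdn hs2f hs2u hs' hu' h5 ?_ hns).symm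
  rw [mul_comm, ← h2]

end Compare

variable {P}
variable {K : Type*} [Field K] [Algebra R K] {A : ValuationSubring K} [Algebra R A]
  [IsScalarTower R A K]
variable {k : Type*} [Field k] [Algebra R k] {π : A →ₐ[R] k}
variable {M : Type*} [AddCommGroup M]

namespace Frame

/-- The element `y` has trivial reduction: the translation data of `y` can be chosen linearly
equivalent on the special fibre. -/
def RedZero (F : Frame P A π M) (y : M) : Prop :=
  ∃ (Y1 Y2 : Ideal (A ⊗[R] B)) (d : ℕ), IsRel A Y1 d ∧ IsRel A Y2 d ∧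
    Lin (Y1.map (sp B π)) (Y2.map (sp B π)) ∧ ∀ x,
    Lin ((I F x * Y1).map (sp B (incl (R := R) A)))
      ((Y2).map (sp B (incl (R := R) A)) * (F.I (x + y)).map (sp B (incl (R := R) A))) ∧
    (F.I x).map (sp B π) ⊔ Y1.map (sp B π) = ⊤ ∧ Y2.map (sp B π) ⊔ (F.I x).map (sp B π) = ⊤

variable (F : Frame P A π M) (hπ : Function.Surjective π)
variable [IsDedekindDomain (k ⊗[R] B)] [IsDedekindDomain (K ⊗[R] B)] [Infinite k]

include hπ in
/-- Translation by an element with trivial reduction, over a local ring. -/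
theorem exists_translate_redZero {T : Type*} [CommRing T] [IsLocalRing T] [Algebra R T]
    (φ : T →ₐ[R] k)
    (hφ : Function.Surjective φ) (IT : Ideal (T ⊗[R] B)) (hIT : IsRel T IT P.g)
    (cT : A →ₐ[R] T) (hcT : φ.comp cT = π) (x0 : M)
    (hIT0 : IT.map (sp B φ) = (F.I x0).map (sp B π)) {y : M} (hy : F.RedZero y)
    {T' : Type*} [CommRing T'] [IsLocalRing T'] [Algebra R T'] (ψ : T →ₐ[R] T') (φ' : T' →ₐ[R] k)
    (hφ' : φ'.comp ψ = φ) (ck : k →ₐ[R] T') (hck : ck.comp π = ψ.comp cT) :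
    ∃ I3 : Ideal (T ⊗[R] B), IsRel T I3 P.g ∧ I3.map (sp B φ) = (F.I (x0 + y)).map (sp B π) ∧
      (∀ (x : M) (t : T →ₐ[R] A), t.comp cT = AlgHom.id R A → IT.map (sp B t) = F.I x →
        I3.map (sp B t) = F.I (x + y)) ∧ I3.map (sp B ψ) = IT.map (sp B ψ) := by
  have hkerA := ker_le_jacobson π
  have hkerT := ker_le_jacobson φ
  obtain ⟨Y1, Y2, d, hY1, hY2, hYk, hY⟩ := hy
  have hφ's : Function.Surjective φ' := by
    intro c
    obtain ⟨a, rfl⟩ := hφ c
    exact ⟨ψ a, by rw [← hφ']; rfl⟩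
  have hY1m : (Y1.map (sp B cT)).map (sp B φ) = Y1.map (sp B π) := by rw [map_map_sp, hcT]
  have hY2m : (Y2.map (sp B cT)).map (sp B φ) = Y2.map (sp B π) := by rw [map_map_sp, hcT]
  have hJ : IsRel T (IT * Y1.map (sp B cT)) (P.g + d) :=
    hIT.mul (hY1.baseChange P cT) (sup_eq_top_of_sp P φ hφ hkerT hIT (by
      rw [hIT0, hY1m]; exact (hY x0).2.1))
  have hQ : IsRel T (Y2.map (sp B cT)) d := hY2.baseChange P cT
  have hD3 : IsRel k ((F.I (x0 + y)).map (sp B π)) P.g := (F.rel (x0 + y)).baseChange P π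
  have hcop : (Y2.map (sp B cT)).map (sp B φ) ⊔ (F.I (x0 + y)).map (sp B π) = ⊤ := by
    rw [hY2m]; exact (hY (x0 + y)).2.2
  have hJA : IsRel A (F.I x0 * Y1) (P.g + d) :=
    (F.rel x0).mul hY1 (sup_eq_top_of_sp P π hπ hkerA (F.rel x0) (hY x0).2.1)
  obtain ⟨α, β, hα, hβ, hcls⟩ := lin_special P A π hπ hJA hY2 (F.rel (x0 + y))
    (hY (x0 + y)).2.2 (hY x0).1
  obtain ⟨I3, D', s, s', n, n', d', hI3, hI3m, hD', hJD, hDQI, hs, hs', hE, hsf, hsu, hs'f,
      hs'u, hdn, hdn', hn, hn'⟩ :=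
    key_strong P φ hφ hJ hQ _ hD3 (F.nonsp (x0 + y)) hcop hα hβ (by
      rw [Ideal.map_mul, hIT0, hY1m, hY2m, ← Ideal.map_mul]; exact hcls)
  have hnn : n = n' := by omega
  subst hnn
  refine ⟨I3, hI3, hI3m, fun x t ht hx => ?_, ?_⟩
  · have hrel : IsRel A (I3.map (sp B t)) P.g := hI3.baseChange P t
    let tK : T →ₐ[R] K := (incl (R := R) A).comp t
    have e1 : (IT * Y1.map (sp B cT)).map (sp B tK) =
        (F.I x * Y1).map (sp B (incl (R := R) A)) := by
      rw [Ideal.map_mul, Ideal.map_mul, ← map_map_sp, hx]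
      congr 1
      rw [map_map_sp, AlgHom.comp_assoc, ht]
      rfl
    have e2 : (Y2.map (sp B cT) * I3).map (sp B tK) = Y2.map (sp B (incl (R := R) A)) *
        (I3.map (sp B t)).map (sp B (incl (R := R) A)) := by
      rw [Ideal.map_mul, map_map_sp, map_map_sp]
      congr 2
      change sp B (((incl (R := R) A).comp t).comp cT) = _
      rw [AlgHom.comp_assoc, ht]
      rfl
    have hne : ∀ {u : T ⊗[R] B} {m : ℕ}, IsRel T (Ideal.span {u}) m → sp B tK u ≠ 0 := by
      intro u m hu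
      have := (hu.baseChange P tK).ne_bot (P.baseChange K)
      rw [map_span_sp, Ne, Ideal.span_singleton_eq_bot] at this
      exact this
    have hLin1 : Lin ((IT * Y1.map (sp B cT)).map (sp B tK))
        ((Y2.map (sp B cT) * I3).map (sp B tK)) := by
      refine Lin.of_principal (E := D'.map (sp B tK)) (hne hs) (hne hs') ?_ ?_
      · rw [← Ideal.map_mul, hJD, map_span_sp]
      · rw [← Ideal.map_mul, ← map_span_sp, ← hDQI]
        congr 1; ring
    rw [e1, e2] at hLin1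
    have hY2K := (hY2.baseChange P (incl (R := R) A)).ne_bot (P.baseChange K)
    have hLin2 := (hLin1.symm.trans (hY x).1).cancel_left hY2K
    have heq := F.uniq (x + y) _ (hrel.baseChange P (incl (R := R) A)) hLin2
    apply le_antisymm
    · intro z hz
      apply mem_of_sp_mem P A (F.rel (x + y))
      rw [← heq]
      exact Ideal.mem_map_of_mem _ hz
    · intro z hz
      apply mem_of_sp_mem P A hrel
      rw [heq]
      exact Ideal.mem_map_of_mem _ hz
  · have hYψ : ∀ Y : Ideal (A ⊗[R] B), (Y.map (sp B cT)).map (sp B ψ) =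
        (Y.map (sp B π)).map (sp B ck) := by
      intro Y
      rw [map_map_sp, map_map_sp, hck]
    refine eq_of_lin_const P φ' hφ's ck (D' := D'.map (sp B ψ)) (d' := d') (n := n)
      (s := sp B ψ s) (s' := sp B ψ s') (hY1.baseChange P π) (hY2.baseChange P π) hYk ?_ hn
      hdn' (P.sp_mem_fil ψ hsf) ?_ (P.sp_mem_fil ψ hs'f) ?_ ?_ ?_ ?_
    · rw [← hYψ, ← Ideal.map_mul]
      exact hE.baseChange P ψ
    · rw [P.lc_sp]; exact hsu.map ψ
    · rw [P.lc_sp]; exact hs'u.map ψ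
    · rw [← hYψ, ← Ideal.map_mul, ← Ideal.map_mul, hJD, map_span_sp]
    · rw [← hYψ, ← Ideal.map_mul, ← Ideal.map_mul, hDQI, map_span_sp]
    · rw [map_map_sp, hφ', hIT0]
      exact F.nonsp x0

include hπ in
/-- Translation of coordinate functions over a local ring. -/
theorem exists_translate_coord_redZero {T : Type*} [CommRing T] [IsLocalRing T] [Algebra R T]
    (φ : T →ₐ[R] k)
    (hφ : Function.Surjective φ) (IT : Ideal (T ⊗[R] B)) (hIT : IsRel T IT P.g)
    (cT : A →ₐ[R] T) (hcT : φ.comp cT = π) (x0 : M)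
    (hIT0 : IT.map (sp B φ) = (F.I x0).map (sp B π)) {y : M} (hy : F.RedZero y)
    {T' : Type*} [CommRing T'] [IsLocalRing T'] [Algebra R T'] (ψ : T →ₐ[R] T') (φ' : T' →ₐ[R] k)
    (hφ' : φ'.comp ψ = φ) (ck : k →ₐ[R] T') (hck : ck.comp π = ψ.comp cT)
    (q : A ⊗[R] B) (j : Fin P.g) :
    ∃ a b : T, ψ a = ψ b ∧ ∀ (x : M) (t : T →ₐ[R] A), t.comp cT = AlgHom.id R A →
        IT.map (sp B t) = F.I x → t a = F.c hπ q j (x + y) ∧ t b = F.c hπ q j x := by
  obtain ⟨I3, hI3, hI3m, h, hψ⟩ := F.exists_translate_redZero hπ φ hφ IT hIT cT hcT x0 hIT0 hy ψ φ'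
    hφ' ck hck
  obtain ⟨p3, hp3⟩ := exists_isCoord P φ hI3 (fun i => sp B cT (F.S i)) (by
    intro z
    obtain ⟨c, hc⟩ := F.hS (x0 + y) z
    refine ⟨c, ?_⟩
    rw [hI3m]
    simp only [sp_comp, hcT]
    exact hc) hφ
  obtain ⟨pT, hpT⟩ := exists_isCoord P φ hIT (fun i => sp B cT (F.S i)) (by
    intro z
    obtain ⟨c, hc⟩ := F.hS x0 z
    refine ⟨c, ?_⟩
    rw [hIT0]
    simp only [sp_comp, hcT]
    exact hc) hφ
  refine ⟨p3 (sp B cT q) j, pT (sp B cT q) j, hp3.residual P ψ hpT hψ _ _,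
    fun x t ht hx => ⟨?_, ?_⟩⟩
  · have h' : IsCoord (F.I (x + y)) (fun i => sp B t (sp B cT (F.S i))) (F.p hπ (x + y)) := by
      simp only [sp_comp, ht, sp_id']
      exact F.isCoord hπ (x + y)
    have h2 := hp3.baseChange P t h' (h x t ht hx) (sp B cT q) j
    rw [sp_comp, ht, sp_id'] at h2
    exact h2.symm
  · have h' : IsCoord (F.I x) (fun i => sp B t (sp B cT (F.S i))) (F.p hπ x) := by
      simp only [sp_comp, ht, sp_id']
      exact F.isCoord hπ x
    have h2 := hpT.baseChange P t h' hx (sp B cT q) j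
    rw [sp_comp, ht, sp_id'] at h2
    exact h2.symm

end Frame

end Fermat.Agent.HopfOrder
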