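import Fermat.Agent.HopfOrder.Output
import Fermat.Agent.HopfRes.Trans2

/-!
# Translations by elements with trivial reduction are trivial modulo the maximal ideal: global form
-/

set_option autoImplicit false

open scoped TensorProduct

namespace Fermat.Agent.HopfOrder

open PoleBasis

variable {R B : Type*} [CommRing R] [CommRing B] [Algebra R B] {P : PoleBasis R B}
variable {K : Type*} [Field K] [Algebra R K] {A : ValuationSubring K} [Algebra R A]
  [IsScalarTower R A K]
variable {k : Type*} [Field k] [Algebra R k] {π : A →ₐ[R] k}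
variable {M : Type*} [AddCommGroup M]

namespace Frame

variable (F : Frame P A π M) (hπ : Function.Surjective π)

variable [IsDedekindDomain (k ⊗[R] B)] [IsDedekindDomain (K ⊗[R] B)] [Infinite k]

include hπ in
theorem exists_local_redZero {H : Type*} [CommRing H] [Algebra R H] (ev : M → H →ₐ[R] A)
    (cst : A →ₐ[R] H) (hcst : ∀ x, (ev x).comp cst = AlgHom.id R A) (IH : Ideal (H ⊗[R] B))
    (hIH : IsRel H IH P.g) (hmap : ∀ x, IH.map (sp B (ev x)) = F.I x)
    (x0 : M) {y : M} (hy : F.RedZero y) (q : A ⊗[R] B) (j : Fin P.g) :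
    ∃ h s : H, h ∈ (RingHom.ker π.toRingHom).map cst.toRingHom ∧ π (ev x0 s) ≠ 0 ∧
      ∀ x, (∀ u : H, π (ev x0 u) ≠ 0 → π (ev x u) ≠ 0) →
        ev x s * (F.c hπ q j (x + y) - F.c hπ q j x) = ev x h := by
  let f0 : H →ₐ[R] k := π.comp (ev x0)
  let 𝔪 : Ideal H := RingHom.ker f0.toRingHom
  have h𝔪 : 𝔪.IsPrime := RingHom.ker_isPrime _
  have hmem : ∀ u : 𝔪.primeCompl, f0 u ≠ 0 := fun u h => u.2 h
  let T := Localization.AtPrime 𝔪
  let ι : H →ₐ[R] T := IsScalarTower.toAlgHom R H T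
  let φ : T →ₐ[R] k := IsLocalization.liftAlgHom (M := 𝔪.primeCompl) (f := f0)
    (fun u => (hmem u).isUnit)
  have hφι : φ.comp ι = f0 := by
    ext u
    exact IsLocalization.lift_eq _ u
  have hcT : φ.comp (ι.comp cst) = π := by
    rw [← AlgHom.comp_assoc, hφι, AlgHom.comp_assoc, hcst]
    rfl
  have hφ : Function.Surjective φ := by
    intro a
    obtain ⟨b, rfl⟩ := hπ a
    exact ⟨ι (cst b), congrFun (congrArg DFunLike.coe hcT) b⟩
  -- the reduction modulo the maximal ideal of `A`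
  let 𝔞 : Ideal H := (RingHom.ker π.toRingHom).map cst.toRingHom
  let 𝔟 : Ideal T := 𝔞.map (algebraMap H T)
  have h𝔟 : ∀ z ∈ 𝔟, φ z = 0 := by
    have : 𝔟 ≤ RingHom.ker φ.toRingHom := by
      rw [Ideal.map_le_iff_le_comap, Ideal.map_le_iff_le_comap]
      intro a ha
      change φ (ι (cst a)) = 0
      have h1 : φ (ι (cst a)) = π a := congrFun (congrArg DFunLike.coe hcT) a
      rw [h1]
      exact ha
    exact fun z hz => this hz
  let T' := T ⧸ 𝔟
  let ψ : T →ₐ[R] T' := Ideal.Quotient.mkₐ R 𝔟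
  have hψ : ∀ z, ψ z = Ideal.Quotient.mk 𝔟 z := fun _ => rfl
  let φ' : T' →ₐ[R] k := Ideal.Quotient.liftₐ 𝔟 φ h𝔟
  have hφ' : φ'.comp ψ = φ := by
    ext u
    rfl
  have hne : Nontrivial T' := by
    refine Ideal.Quotient.nontrivial_iff.mpr fun htop => ?_
    have h1 : φ 1 = 0 := h𝔟 1 (by rw [htop]; trivial)
    rw [map_one] at h1
    exact one_ne_zero h1
  have hloc : IsLocalRing T' := IsLocalRing.of_surjective' (Ideal.Quotient.mk 𝔟)
    Ideal.Quotient.mk_surjective
  let e : (A ⧸ RingHom.ker π) ≃ₐ[R] k := Ideal.quotientKerAlgEquivOfSurjective hπ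
  have hkill : ∀ a ∈ RingHom.ker π, (ψ.comp (ι.comp cst)) a = 0 := by
    intro a ha
    change Ideal.Quotient.mk 𝔟 (ι (cst a)) = 0
    rw [Ideal.Quotient.eq_zero_iff_mem]
    exact Ideal.mem_map_of_mem _ (Ideal.mem_map_of_mem _ ha)
  let c0 : (A ⧸ RingHom.ker π) →ₐ[R] T' :=
    Ideal.Quotient.liftₐ (RingHom.ker π) (ψ.comp (ι.comp cst)) hkill
  let ck : k →ₐ[R] T' := c0.comp (e.symm : k →ₐ[R] _)
  have hck : ck.comp π = ψ.comp (ι.comp cst) := by
    ext a
    have h1 : e.symm (π a) = Ideal.Quotient.mk (RingHom.ker π) a := by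
      rw [AlgEquiv.symm_apply_eq]
      rfl
    change c0 (e.symm (π a)) = _
    rw [h1]
    rfl
  obtain ⟨a, b, hab, ht⟩ := F.exists_translate_coord_redZero hπ φ hφ (IH.map (sp B ι))
    (hIH.baseChange P ι) (ι.comp cst) hcT x0
    (by rw [map_map_sp, hφι, ← map_map_sp, hmap]) hy ψ φ' hφ' ck hck q j
  have hab' : a - b ∈ 𝔟 := by
    rw [← Ideal.Quotient.eq_zero_iff_mem, map_sub, sub_eq_zero]
    exact hab
  obtain ⟨⟨⟨h, hh⟩, s⟩, hhs⟩ := (IsLocalization.mem_map_algebraMap_iff 𝔪.primeCompl T).mp hab'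
  refine ⟨h, s, hh, hmem s, fun x hx => ?_⟩
  let t : T →ₐ[R] A := IsLocalization.liftAlgHom (M := 𝔪.primeCompl) (f := ev x)
    (fun u => isUnit_of_map_ne_zero π hπ (hx u (hmem u)))
  have htι : t.comp ι = ev x := by
    ext u
    exact congrArg Subtype.val (IsLocalization.lift_eq _ u)
  have h1 := ht x t (by rw [← AlgHom.comp_assoc, htι, hcst]) (by
    rw [map_map_sp, htι, hmap])
  have h2 : ∀ u, t (algebraMap H T u) = ev x u := fun u =>
    congrFun (congrArg DFunLike.coe htι) u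
  have h3 := congrArg t hhs
  simp only at h3
  rw [map_mul, h2, h2, map_sub, h1.1, h1.2] at h3
  rw [mul_comm]
  exact h3

section Points

variable [Finite M]

omit [Algebra R K] [IsScalarTower R A K] [AddCommGroup M] [Finite M]
  [IsDedekindDomain (k ⊗[R] B)] [IsDedekindDomain (K ⊗[R] B)] [Infinite k] in
/-- The maximal ideal of `A` in `H`. -/
lemma mem_smul_iff (H : Subalgebra A (M → A)) (𝔞 : Ideal A) (f : H) :
    f ∈ 𝔞.map (algebraMap A H) ↔ (f : M → A) ∈ 𝔞 • (Subalgebra.toSubmodule H) := by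
  have h1 : (𝔞 • (⊤ : Submodule A H)).map H.val.toLinearMap = 𝔞 • (Subalgebra.toSubmodule H) := by
    rw [Submodule.map_smul'']
    congr 1
    ext g
    constructor
    · rintro ⟨u, -, rfl⟩
      exact u.2
    · intro hg
      exact ⟨⟨g, hg⟩, trivial, rfl⟩
  rw [← h1, Ideal.smul_top_eq_map]
  constructor
  · intro h
    exact ⟨f, h, rfl⟩
  · rintro ⟨u, hu, huf⟩
    have : u = f := Subtype.ext huf
    rw [← this]
    exact hu

/-- Translation by an element with trivial reduction, on generators. -/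
theorem translate_sub_mem {y : M} (hy : F.RedZero y) (q : A ⊗[R] B) (j : Fin P.g) :
    (fun x => F.c hπ q j (x + y)) - F.c hπ q j ∈
      (RingHom.ker π.toRingHom) • (Subalgebra.toSubmodule (F.H hπ)) := by
  classical
  have := Fintype.ofFinite M
  set f : F.H hπ := ⟨fun x => F.c hπ q j (x + y), F.translate_mem hπ y q j⟩ -
    ⟨F.c hπ q j, F.c_mem hπ q j⟩ with hf
  have hfx : ∀ x, F.ev hπ x f = F.c hπ q j (x + y) - F.c hπ q j x := fun x => rfl
  let 𝔞 : Ideal (F.H hπ) := (RingHom.ker π.toRingHom).map (algebraMap A (F.H hπ))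
  suffices h : f ∈ 𝔞 from (mem_smul_iff (F.H hπ) _ f).mp h
  let C : Ideal (F.H hπ) := 𝔞.colon (Ideal.span {f})
  have hC : ∀ u, u ∈ C ↔ u * f ∈ 𝔞 := by
    intro u
    exact Ideal.mem_colon_span_singleton
  suffices h : C = ⊤ by
    have h1 : (1 : F.H hπ) ∈ C := by rw [h]; trivial
    rw [hC] at h1
    simpa using h1
  by_contra hne
  obtain ⟨𝔪, h𝔪, hle⟩ := Ideal.exists_le_maximal _ hne
  obtain ⟨x0, hx0⟩ := exists_point (F.H hπ) 𝔪 hπ
  obtain ⟨h, s, hh, hs, hgood⟩ := F.exists_local_redZero hπ (F.ev hπ) (F.cst hπ)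
    (F.ev_comp_cst hπ) (F.IH hπ) (F.isRel_IH hπ) (F.map_IH hπ) x0 hy q j
  have hbad : ∀ x, ∃ w : F.H hπ, π (F.ev hπ x0 w) ≠ 0 ∧
      ((∀ u : F.H hπ, π (F.ev hπ x0 u) ≠ 0 → π (F.ev hπ x u) ≠ 0) ∨ F.ev hπ x w = 0) := by
    intro x
    by_cases hx : ∀ u : F.H hπ, π (F.ev hπ x0 u) ≠ 0 → π (F.ev hπ x u) ≠ 0
    · exact ⟨1, by rw [map_one, map_one]; exact one_ne_zero, Or.inl hx⟩
    · push Not at hx
      obtain ⟨u, hu0, hu⟩ := hx
      refine ⟨u - F.cst hπ (F.ev hπ x u), ?_, Or.inr ?_⟩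
      · rw [map_sub, map_sub, F.ev_cst, hu, sub_zero]; exact hu0
      · rw [map_sub, F.ev_cst, sub_self]
  choose w hw0 hw using hbad
  have hmem : s * ∏ x, w x ∈ C := by
    rw [hC]
    have : (s * ∏ x, w x) * f = h * ∏ x, w x := by
      apply Subtype.ext
      funext x
      change F.ev hπ x ((s * ∏ x, w x) * f) = F.ev hπ x (h * ∏ x, w x)
      have hprod : F.ev hπ x (∏ x, w x) = ∏ z, F.ev hπ x (w z) := map_prod _ _ _
      rw [map_mul, map_mul, map_mul, hfx]
      rcases hw x with hx | hx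
      · rw [← hgood x hx]
        ring
      · have hz : F.ev hπ x (∏ x, w x) = 0 := by
          rw [hprod]
          exact Finset.prod_eq_zero (f := fun z => F.ev hπ x (w z)) (Finset.mem_univ x) hx
        rw [hz]
        ring
    rw [this]
    exact Ideal.mul_mem_right _ _ hh
  have h1 := (hx0 _).mp (hle hmem)
  have h2 : π (F.ev hπ x0 (s * ∏ x, w x)) = π (F.ev hπ x0 s) * ∏ x, π (F.ev hπ x0 (w x)) := by
    rw [map_mul, map_mul, map_prod, map_prod]
  have h3 : π (F.ev hπ x0 (s * ∏ x, w x)) = 0 := h1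
  rw [h2] at h3
  exact mul_ne_zero hs (Finset.prod_ne_zero_iff.mpr fun x _ => hw0 x) h3

/-- Translation by an element with trivial reduction. -/
theorem translate_sub_mem' {y : M} (hy : F.RedZero y) {f : M → A} (hf : f ∈ F.H hπ) :
    (fun x => f (x + y)) - f ∈
      (RingHom.ker π.toRingHom) • (Subalgebra.toSubmodule (F.H hπ)) := by
  have hmulr : ∀ {g h : M → A}, g ∈ (RingHom.ker π.toRingHom) • (Subalgebra.toSubmodule (F.H hπ)) →
      h ∈ F.H hπ → g * h ∈ (RingHom.ker π.toRingHom) • (Subalgebra.toSubmodule (F.H hπ)) := by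
    intro g h hg hh
    have hg' : g ∈ F.H hπ := (Submodule.smul_le_right : _ ≤ Subalgebra.toSubmodule (F.H hπ)) hg
    have e1 := (mem_smul_iff (F.H hπ) (RingHom.ker π.toRingHom) ⟨g, hg'⟩).mpr hg
    exact (mem_smul_iff (F.H hπ) (RingHom.ker π.toRingHom) (⟨g, hg'⟩ * ⟨h, hh⟩)).mp
      (Ideal.mul_mem_right _ _ e1)
  induction hf using Algebra.adjoin_induction with
  | mem f hf =>
    obtain ⟨q, j, rfl⟩ := hf
    exact F.translate_sub_mem hπ hy q j
  | algebraMap a =>
    have : (fun x : M => (algebraMap A (M → A) a) (x + y)) - algebraMap A (M → A) a = 0 := by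
      funext x
      simp
    rw [this]
    exact zero_mem _
  | add f g _ _ hf hg =>
    have : (fun x => (f + g) (x + y)) - (f + g) =
        ((fun x => f (x + y)) - f) + ((fun x => g (x + y)) - g) := by
      funext x
      simp only [Pi.add_apply, Pi.sub_apply]
      ring
    rw [this]
    exact add_mem hf hg
  | mul f g hfH hgH hf hg =>
    have : (fun x => (f * g) (x + y)) - (f * g) =
        ((fun x => f (x + y)) - f) * (fun x => g (x + y)) + ((fun x => g (x + y)) - g) * f := by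
      funext x
      simp only [Pi.add_apply, Pi.sub_apply, Pi.mul_apply]
      ring
    rw [this]
    exact add_mem (hmulr hf (F.translate_mem' hπ y hgH)) (hmulr hg hfH)

end Points

end Frame

end Fermat.Agent.HopfOrder
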