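import Fermat.Agent.HopfFrame.Frame
import Fermat.Agent.HopfRes.Stable2

/-!
# Reduction of linear equivalences; frames with translation data for elements of trivial reduction
-/

set_option autoImplicit false

open scoped TensorProduct

namespace Fermat.Agent.HopfFrame

open Fermat.Agent.HopfOrder Fermat.Agent.HopfOrder.PoleBasis

variable {R B : Type*} [CommRing R] [CommRing B] [Algebra R B] (P : PoleBasis R B)
variable {K : Type*} [Field K] [Algebra R K] {A : ValuationSubring K} [Algebra R A]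
  [IsScalarTower R A K]
variable {k : Type*} [Field k] [Algebra R k] (π : A →ₐ[R] k) (hπ : Function.Surjective π)

include P hπ in
lemma red_span' [IsDomain (k ⊗[R] B)] {u : K ⊗[R] B} (hu : u ≠ 0) :
    ∃ v : k ⊗[R] B, v ≠ 0 ∧ red A π (Ideal.span {u}) = Ideal.span {v} := by
  obtain ⟨c, v, hc, hv, hv0⟩ := exists_primitive P A π hu
  refine ⟨sp B π v, hv0, ?_⟩
  rw [← red_span P π hπ hv0]
  congr 1
  rw [hv, Algebra.smul_def]
  exact (Ideal.span_singleton_mul_left_unit
    ((isUnit_iff_ne_zero.mpr hc).map (algebraMap K (K ⊗[R] B))) u).symm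

variable [IsDedekindDomain (K ⊗[R] B)] [IsDedekindDomain (k ⊗[R] B)]

include hπ in
/-- Linear equivalences between good ideals reduce. -/
theorem red_lin {G1 G2 : Ideal (K ⊗[R] B)} (h1 : Good P A G1) (h2 : Good P A G2)
    (h : Lin G1 G2) : Lin (red A π G1) (red A π G2) := by
  obtain ⟨G', u, hG', hu, hGu⟩ := h2.exists_inv P
  obtain ⟨v, hv, hGv⟩ := h.symm.exists_principal hu hGu
  obtain ⟨ub, hub, hub'⟩ := red_span' P π hπ hu
  obtain ⟨vb, hvb, hvb'⟩ := red_span' P π hπ hv
  refine Lin.of_principal (E := red A π G') hvb hub ?_ ?_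
  · rw [← red_mul P π hπ h1 hG', hGv, hvb']
  · rw [← red_mul P π hπ h2 hG', hGu, hub']

include hπ in
/-- If the trace of an ideal is a relative divisor, the ideal is good. -/
theorem good_of_isRel [Infinite k] {J : Ideal (K ⊗[R] B)} {d : ℕ} (h : IsRel A (rA A J) d) :
    Good P A J := by
  have hk : IsRel k (red A π J) d := h.baseChange P π
  have hk0 := hk.ne_bot (P.baseChange k)
  obtain ⟨n0, hn0⟩ := exists_fil_sup (P.baseChange k) hk
  obtain ⟨N0, hN0⟩ := exists_generic (P.baseChange k) hk0 hk0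
  obtain ⟨sb, hsb, hsbl, D, hD, -⟩ := hN0 (N0 + n0 + P.m0 + 1) (by omega)
  have hsbJ : sb ∈ red A π J := by
    have : sb ∈ red A π J * D := by rw [hD]; exact Ideal.mem_span_singleton_self _
    exact Ideal.mul_le_left this
  obtain ⟨s, hs, hsJ, rfl⟩ := exists_lift_mem P π hπ (ker_le_jacobson π) h
    (N0 + n0 + P.m0 + 1) (hn0 _ (by omega)) hsb hsbJ
  refine ⟨N0 + n0 + P.m0 + 1, by omega, s, hs, ?_, hsJ⟩
  apply isUnit_of_map_ne_zero π hπ
  rw [← P.lc_sp]
  exact hsbl

/-- The class `J y` has the same reduction as the class `J 0`. -/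
def RedEq {M : Type*} [AddCommGroup M] (J : M → Ideal (K ⊗[R] B)) (y : M) : Prop :=
  ∃ G1 G2 : Ideal (K ⊗[R] B), Good P A G1 ∧ Good P A G2 ∧ Lin G1 (J y) ∧ Lin G2 (J 0) ∧
    Lin (red A π G1) (red A π G2)

variable [IsAlgClosed K] [IsAlgClosed k]

include hπ in
/-- **Existence of frames**, with translation data for the elements with trivial reduction. -/
theorem exists_frame_redZero (G : Set (A →ₐ[R] A)) (hG : ∀ σ ∈ G, π.comp σ = π)
    (hsurj : ∀ c : k, ∃ a : A, π a = c ∧ ∀ σ ∈ G, σ a = a) {M : Type*} [AddCommGroup M] [Finite M]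
    (J : M → Ideal (K ⊗[R] B)) (hJ : ∀ x, J x ≠ ⊥) (hinj : ∀ x y, Lin (J x) (J y) → x = y)
    (hadd : ∀ x y, Lin (J (x + y)) (J x * J y)) :
    ∃ F : Frame P A π M, (∀ i, ∀ σ ∈ G, sp B σ (F.S i) = F.S i) ∧
      (∀ (τ : K ≃ₐ[R] K) (σ : A →ₐ[R] A), σ ∈ G → (∀ a : A, (σ a : K) = τ a) → ∀ x x' : M,
        Lin ((J x).map (sp B (τ : K →ₐ[R] K))) (J x') → (F.I x).map (sp B σ) = F.I x') ∧
      ∀ y, RedEq P π J y → F.RedZero y := by
  classical
  cases nonempty_fintype M
  have : Infinite k := IsAlgClosed.instInfinite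
  let Pk := P.baseChange k
  let PK := P.baseChange K
  obtain ⟨S, I, hS, hI⟩ := move P π hπ G hG hsurj J hJ ∅ (by simp)
  choose hgood hrel hlin hns hemp huniq using hI
  let Q : Ideal (K ⊗[R] B) := ∏ v ∈ S, ptIdeal ((incl A).comp v)
  have hQ0 : Q ≠ ⊥ := ne_bot_of_good P (Good.prod P S fun v _ => good_ptIdeal P v)
  have hlinQ : ∀ x, Lin (I x * Q) (J x) := hlin
  have huniqQ : ∀ x (I' : Ideal (K ⊗[R] B)), IsRel K I' P.g → Lin (I' * Q) (J x) → I' = I x := huniq
  -- the second application of the moving theorem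
  have hredI : ∀ x, IsRel k (red A π (I x)) P.g := fun x => (hgood x).isRel_red P π hπ (hrel x)
  have hredI0 : ∀ x, red A π (I x) ≠ ⊥ := fun x => (hredI x).ne_bot Pk
  let W : Finset (Ideal (k ⊗[R] B)) := Finset.univ.biUnion fun x =>
    (UniqueFactorizationMonoid.normalizedFactors (red A π (I x))).toFinset
  have hW : ∀ w, w ∈ W ↔ ∃ x, w.IsPrime ∧ red A π (I x) ≤ w := by
    intro w
    simp only [W, Finset.mem_biUnion, Finset.mem_univ, true_and, Multiset.mem_toFinset]
    exact exists_congr fun x => Ideal.mem_normalizedFactors_iff (hredI0 x)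
  have hWmax : ∀ w ∈ W, w.IsMaximal := by
    intro w hw
    obtain ⟨x, hwp, hwx⟩ := (hW w).mp hw
    refine hwp.isMaximal fun h => ?_
    rw [h, le_bot_iff] at hwx
    exact hredI0 x hwx
  obtain ⟨S', I', -, hI'⟩ := move P π hπ G hG hsurj J hJ W hWmax
  choose hgood' hrel' hlin' hns' hW' huniq' using hI'
  let Q' : Ideal (K ⊗[R] B) := ∏ v ∈ S', ptIdeal ((incl A).comp v)
  have hQ'g : Good P A Q' := Good.prod P S' fun v _ => good_ptIdeal P v
  have hQ'0 : Q' ≠ ⊥ := ne_bot_of_good P hQ'g
  have hlinQ' : ∀ x, Lin (I' x * Q') (J x) := hlin'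
  have hcop : ∀ x z, red A π (I x) ⊔ red A π (I' z) = ⊤ := by
    intro x z
    by_contra hne
    obtain ⟨w, hwm, hw⟩ := Ideal.exists_le_maximal _ hne
    have hwW : w ∈ W := (hW w).mpr ⟨x, hwm.isPrime, le_sup_left.trans hw⟩
    exact hW' z w hwW (le_sup_right.trans hw)
  have htr : ∀ y x,
      Lin ((rA A (I x) * rA A (I' y)).map (sp B (incl (R := R) A)))
        ((rA A (I' 0)).map (sp B (incl (R := R) A)) *
          (rA A (I (x + y))).map (sp B (incl (R := R) A))) ∧
      (rA A (I x)).map (sp B π) ⊔ (rA A (I' y)).map (sp B π) = ⊤ ∧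
      (rA A (I' 0)).map (sp B π) ⊔ (rA A (I x)).map (sp B π) = ⊤ := by
    intro y x
    refine ⟨?_, ?_, ?_⟩
    · rw [Ideal.map_mul, map_rA P, map_rA P, map_rA P, map_rA P]
      -- cancel `Q * Q'`
      apply Lin.cancel_left (X := Q * Q') (mul_ne_zero hQ0 hQ'0)
      have h1 : Lin (Q * Q' * (I x * I' y)) (J x * J y) := by
        have e : Q * Q' * (I x * I' y) = (I x * Q) * (I' y * Q') := by ring
        rw [e]
        exact ((hlinQ x).mul_right _).trans ((hlinQ' y).mul_left _)
      have h2 : Lin (Q * Q' * (I' 0 * I (x + y))) (J 0 * J (x + y)) := by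
        have e : Q * Q' * (I' 0 * I (x + y)) = (I' 0 * Q') * (I (x + y) * Q) := by ring
        rw [e]
        exact ((hlinQ' 0).mul_right _).trans ((hlinQ (x + y)).mul_left _)
      have h3 : Lin (J 0 * J (x + y)) (J (0 + (x + y))) := (hadd 0 (x + y)).symm
      rw [zero_add] at h3
      exact h1.trans (((hadd x y).symm.trans h3.symm).trans h2.symm)
    · exact hcop x y
    · rw [sup_comm]; exact hcop x 0
  -- the basis
  obtain ⟨Sg, hSgG, hSg⟩ := exists_fixed_basis P π G hsurj (fun x : M => red A π (I x)) hredI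
  let F : Frame P A π M :=
    { I := fun x => rA A (I x)
      rel := fun x => (hgood x).isRel P π hπ (hrel x)
      nonsp := hns
      uniq := by
        intro x J' hJ' hL
        rw [map_rA P] at hL ⊢
        exact huniqQ x J' hJ' ((hL.mul_right Q).trans (hlinQ x))
      inj := by
        intro x y hxy
        have h1 : I x = I y := by
          have h2 : rA A (I x) = rA A (I y) := hxy
          rw [← map_rA P (A := A) (I x), h2, map_rA P]
        apply hinj
        exact (hlinQ x).symm.trans (h1 ▸ hlinQ y)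
      tr := fun y => ⟨rA A (I' y), rA A (I' 0), P.g, P.g, (hgood' y).isRel P π hπ (hrel' y),
          (hgood' 0).isRel P π hπ (hrel' 0), htr y⟩
      S := Sg
      hS := hSg }
  refine ⟨F, hSgG, fun τ σ hσ hτσ x x' hL => ?_, fun y hy => ?_⟩
  · let τ' : K →ₐ[R] K := τ
    have hinjτ : Function.Injective (sp B τ') := by
      intro a b hab
      have h1 := congrArg (sp B (τ.symm : K →ₐ[R] K)) hab
      rw [sp_comp, sp_comp] at h1
      have h2 : ((τ.symm : K →ₐ[R] K)).comp τ' = AlgHom.id R K := by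
        ext a
        exact τ.symm_apply_apply a
      rw [h2] at h1
      have h3 : ∀ c : K ⊗[R] B, sp B (AlgHom.id R K) c = c := by
        intro c
        induction c with
        | zero => simp
        | tmul t b => simp
        | add a b ha hb => rw [map_add, ha, hb]
      rwa [h3, h3] at h1
    have hcomp : (incl (R := R) A).comp σ = τ'.comp (incl (R := R) A) := by
      ext a
      exact hτσ a
    have hQτ : Q.map (sp B τ') = Q := by
      have hprod : ∀ s : Finset (B →ₐ[R] A), (∀ v ∈ s, σ.comp v = v) →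
          (∏ v ∈ s, ptIdeal ((incl A).comp v)).map (sp B τ') =
            ∏ v ∈ s, ptIdeal ((incl A).comp v) := by
        intro s
        induction s using Finset.induction_on with
        | empty =>
          intro _
          rw [Finset.prod_empty, Ideal.one_eq_top, Ideal.map_top]
        | insert a s ha ih =>
          intro hs
          rw [Finset.prod_insert ha, Ideal.map_mul, ih fun v hv => hs v (Finset.mem_insert_of_mem hv),
            map_ptIdeal P, ← AlgHom.comp_assoc, ← hcomp, AlgHom.comp_assoc,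
            hs a (Finset.mem_insert_self a s)]
      exact hprod S fun v hv => hS v hv σ hσ
    have hIx : (I x).map (sp B τ') = I x' := by
      apply huniqQ x'
      · exact (hrel x).baseChange P τ'
      · have h1 := Lin.map (sp B τ').toRingHom hinjτ (hlinQ x)
        have h2 : (I x * Q).map (sp B τ').toRingHom = (I x).map (sp B τ') * Q := by
          have : (I x * Q).map (sp B τ') = (I x).map (sp B τ') * Q := by rw [Ideal.map_mul, hQτ]
          exact this
        rw [h2] at h1
        exact h1.trans hL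
    have hle : (F.I x).map (sp B σ) ≤ F.I x' := by
      rw [Ideal.map_le_iff_le_comap]
      intro z hz
      change sp B (incl A) (sp B σ z) ∈ I x'
      rw [sp_comp, hcomp, ← sp_comp, ← hIx]
      exact Ideal.mem_map_of_mem _ hz
    exact ((F.rel x).baseChange P σ).eq_of_le (F.rel x') le_rfl hle
  · obtain ⟨G1, G2, hG1, hG2, hL1, hL2, hred⟩ := hy
    refine ⟨rA A (I' y), rA A (I' 0), P.g, (hgood' y).isRel P π hπ (hrel' y),
      (hgood' 0).isRel P π hπ (hrel' 0), ?_, htr y⟩
    change Lin (red A π (I' y)) (red A π (I' 0))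
    have e1 : Lin (red A π Q' * red A π (I' y)) (red A π G1) := by
      rw [← red_mul P π hπ hQ'g (hgood' y)]
      apply red_lin P π hπ (hQ'g.mul P (hgood' y)) hG1
      rw [mul_comm]
      exact (hlinQ' y).trans hL1.symm
    have e2 : Lin (red A π Q' * red A π (I' 0)) (red A π G2) := by
      rw [← red_mul P π hπ hQ'g (hgood' 0)]
      apply red_lin P π hπ (hQ'g.mul P (hgood' 0)) hG2
      rw [mul_comm]
      exact (hlinQ' 0).trans hL2.symm
    have hQ'k : red A π Q' ≠ ⊥ := by
      obtain ⟨d, hd⟩ := exists_isRel PK hQ'0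
      exact (hQ'g.isRel_red P π hπ hd).ne_bot Pk
    exact Lin.cancel_left hQ'k ((e1.trans hred).trans e2.symm)

include P hπ in
/-- **Main theorem**: functions on a finite group of ideal classes; translations by elements with
trivial reduction are trivial modulo the maximal ideal. -/
theorem exists_functions_redZero (G : Set (A →ₐ[R] A)) (hG : ∀ σ ∈ G, π.comp σ = π)
    (hsurj : ∀ c : k, ∃ a : A, π a = c ∧ ∀ σ ∈ G, σ a = a) {M : Type*} [AddCommGroup M] [Finite M]
    (J : M → Ideal (K ⊗[R] B)) (hJ : ∀ x, J x ≠ ⊥) (hinj : ∀ x y, Lin (J x) (J y) → x = y)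
    (hadd : ∀ x y, Lin (J (x + y)) (J x * J y)) :
    ∃ (H : Subalgebra A (M → A)) (E : Finset (M → A)),
      Submodule.span A (E : Set (M → A)) = Subalgebra.toSubmodule H ∧
      (∀ (τ : K ≃ₐ[R] K) (σ : A →ₐ[R] A), σ ∈ G → (∀ a : A, (σ a : K) = τ a) → ∀ x x' : M,
        Lin ((J x).map (sp B (τ : K →ₐ[R] K))) (J x') → ∀ f ∈ E, f x' = σ (f x)) ∧
      (∀ x x', (∀ f ∈ E, f x = f x') → x = x') ∧
      (∀ y, ∀ f ∈ H, (fun x => f (x + y)) ∈ H) ∧
      (∀ y, RedEq P π J y → ∀ f ∈ H, (fun x => f (x + y)) - f ∈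
        (RingHom.ker π.toRingHom) • (Subalgebra.toSubmodule H)) := by
  have : Infinite k := IsAlgClosed.instInfinite
  obtain ⟨F, hFS, hF, hR⟩ := exists_frame_redZero P π hπ G hG hsurj J hJ hinj hadd
  obtain ⟨Gb, hGb⟩ := (P.finiteType.out : (⊤ : Subalgebra R B).FG)
  obtain ⟨E, hE, hE'⟩ := F.exists_finset hπ (Gb : Set B) hGb Gb.finite_toSet
  refine ⟨F.H hπ, E, hE', ?_, ?_, fun y f hf => F.translate_mem' hπ y hf,
    fun y hy f hf => F.translate_sub_mem' hπ (hR y hy) hf⟩
  · intro τ σ hσ hτσ x x' hL f hf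
    exact F.equivariant hπ _ σ x x' (hF τ σ hσ hτσ x x' hL) (fun i => hFS i σ hσ) (hE hf)
  · intro x x' h
    apply F.separates hπ
    intro f hf
    have hf' : f ∈ Submodule.span A (E : Set (M → A)) := by rw [hE']; exact hf
    clear hf
    induction hf' using Submodule.span_induction with
    | mem f hf => exact h f hf
    | zero => rfl
    | add f g _ _ hf hg => rw [Pi.add_apply, Pi.add_apply, hf, hg]
    | smul a f _ hf => rw [Pi.smul_apply, Pi.smul_apply, hf]

end Fermat.Agent.HopfFrame
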