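import Fermat.Agent.HopfFrame.FromSetup
import Fermat.Agent.HopfRes.RedLin

/-!
# Functions on finite subgroups of the Jacobian of a curve with a good integral model
-/

set_option autoImplicit false
set_option linter.unusedSectionVars false

open AlgebraicCurve WithZero Module
open scoped TensorProduct
open Fermat.Agent.RR Fermat.Agent.FF Fermat.Agent.Deuring Fermat.Agent.HopfOrder

namespace Fermat.Agent.HopfFrame

attribute [local instance] nonempty_place finiteResidue

variable {K F k F' : Type*} [Field K] [Field F] [Algebra K F] [Field k] [Field F'] [Algebra k F']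
  [IsFF K F] [IsFF k F'] [IsAlgClosed K] [IsAlgClosed k]

section RedTriv

variable {G : GaussData K F k F'}

/-- The reduction of the divisor class `z` is trivial. -/
def RedTriv (Rd : RedMap G) (z : Pic0 K F) : Prop :=
  ∃ D : Divisor.degZero (K := K) (F := F), Pic0.mk D = z ∧
    (Rd.r (D : Divisor K F)).IsPrincipal

lemma isPrincipal_r (Rd : RedMap G) {D : Divisor K F} (h : D.IsPrincipal) :
    (Rd.r D).IsPrincipal := by
  obtain ⟨f, hf, rfl⟩ := isPrincipal_iff.mp h
  obtain ⟨c, hc, h, h0⟩ := G.exists_scale hf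
  rw [← div_smul hc, Rd.r_div _ h h0]
  exact isPrincipal_div h0

lemma isPrincipal_add {D D' : Divisor k F'} (h : D.IsPrincipal) (h' : D'.IsPrincipal) :
    (D + D').IsPrincipal := by
  obtain ⟨f, hf, rfl⟩ := isPrincipal_iff.mp h
  obtain ⟨f', hf', rfl⟩ := isPrincipal_iff.mp h'
  rw [← RR.div_mul hf hf']
  exact isPrincipal_div (mul_ne_zero hf hf')

/-- Triviality of the reduction does not depend on the representative. -/
theorem redTriv_mk_iff (Rd : RedMap G) (D : Divisor.degZero (K := K) (F := F)) :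
    RedTriv Rd (Pic0.mk D) ↔ (Rd.r (D : Divisor K F)).IsPrincipal := by
  constructor
  · rintro ⟨D', hD', h⟩
    have h1 : (D : Divisor K F) - D' ∈ Divisor.principal (K := K) (F := F) := by
      unfold Pic0.mk at hD'
      rw [QuotientAddGroup.eq, AddSubgroup.mem_addSubgroupOf] at hD'
      have e : (D : Divisor K F) - D' = ((-D' + D : Divisor.degZero (K := K) (F := F)) :
          Divisor K F) := by
        push_cast
        abel
      rw [e]
      exact hD'
    have h2 : ((D : Divisor K F) - D').IsPrincipal := h1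
    have h3 := isPrincipal_add (isPrincipal_r Rd h2) h
    rwa [← map_add, sub_add_cancel] at h3
  · intro h
    exact ⟨D, rfl, h⟩

end RedTriv

variable {G : GaussData K F k F'} {P0 : Place K F}
variable {R : Type*} [CommRing R] [Algebra R K] [Algebra R k] [Algebra R F] [IsScalarTower R K F]
  [Algebra R G.A] [IsScalarTower R G.A K] [Algebra R F'] [IsScalarTower R k F']

/-- Good representatives of divisor classes. -/
theorem exists_good_compl (S : Setup G P0 R) (D : Divisor K F) :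
    ∃ D' : Divisor K F, S.Good D' ∧ cls P0 D' = - cls P0 D := by
  classical
  obtain ⟨n, hn1, hn2⟩ : ∃ n : ℕ, S.Rd.n₀ + Divisor.degree D ≤ n ∧
      2 * (genusFF k F' : ℤ) + Divisor.degree D ≤ n :=
    ⟨(max (S.Rd.n₀ + Divisor.degree D) (2 * (genusFF k F' : ℤ) + Divisor.degree D)).toNat,
      by omega, by omega⟩
  obtain ⟨E, hEdef⟩ : ∃ E : Divisor K F, E = Finsupp.single P0 (n : ℤ) - D := ⟨_, rfl⟩
  have hE : Divisor.degree E = n - Divisor.degree D := by
    rw [hEdef, map_sub, degree_single_one]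
  have hE' : Divisor.degree (S.Rd.r E) = n - Divisor.degree D := by rw [S.Rd.degree_r, hE]
  obtain ⟨g, hg, hg'⟩ : ∃ g ∈ riemannRochSpace (S.Rd.r E),
      g ∉ riemannRochSpace (S.Rd.r E - Finsupp.single S.w 1) := by
    by_contra hcon
    push Not at hcon
    have h1 := ell_large (D := S.Rd.r E) (by rw [hE']; omega)
    have h2 := ell_large (D := S.Rd.r E - Finsupp.single S.w 1) (by
      rw [map_sub, degree_single_one, hE']; omega)
    rw [map_sub, degree_single_one] at h2
    have h3 : ell (S.Rd.r E) ≤ ell (S.Rd.r E - Finsupp.single S.w 1) :=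
      Submodule.finrank_mono hcon
    omega
  have hg0 : g ≠ 0 := by
    rintro rfl
    exact hg' (Submodule.zero_mem _)
  have hord : S.Rd.r E S.w + S.w.ord g = 0 := by
    rw [mem_L_iff hg0] at hg hg'
    push Not at hg'
    obtain ⟨v, hv⟩ := hg'
    have h1 := hg v
    rw [Finsupp.sub_apply, Finsupp.single_apply] at hv
    split_ifs at hv with hvw
    · subst hvw
      omega
    · omega
  rw [← S.Rd.redSpace_L E (by omega)] at hg
  obtain ⟨s, hs, hsO, hsg⟩ := hg
  have hs0 : s ≠ 0 := by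
    rintro rfl
    apply hg0
    rw [← hsg]
    exact map_zero G.ρ
  refine ⟨E + div s, ⟨?_, ?_⟩, ?_⟩
  · intro v
    rw [mem_L_iff hs0] at hs
    have := hs v
    rw [Finsupp.add_apply, div_apply, Finsupp.coe_zero, Pi.zero_apply]
    omega
  · rw [map_add, S.Rd.r_div s hsO (by rw [hsg]; exact hg0), hsg, Finsupp.add_apply, div_apply]
    exact hord
  · rw [eq_neg_iff_add_eq_zero, ← cls_add]
    have h0 : cls P0 (0 : Divisor K F) = 0 := by
      have := cls_add P0 (0 : Divisor K F) 0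
      rw [add_zero] at this
      exact left_eq_add.mp this
    rw [← h0, cls_eq_iff]
    refine ⟨s, hs0, fun v hv => ?_⟩
    rw [hEdef, Finsupp.add_apply, Finsupp.add_apply, Finsupp.sub_apply, div_apply,
      Finsupp.single_eq_of_ne hv, Finsupp.coe_zero, Pi.zero_apply]
    ring

lemma cls_zero : cls P0 (0 : Divisor K F) = 0 := by
  have := cls_add P0 (0 : Divisor K F) 0
  rw [add_zero] at this
  exact left_eq_add.mp this

theorem exists_good_cls (S : Setup G P0 R) (z : Pic0 K F) :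
    ∃ D : Divisor K F, S.Good D ∧ cls P0 D = z := by
  obtain ⟨D0, -, -, h0⟩ := exists_effective P0 (-z)
  obtain ⟨D, hD, h⟩ := exists_good_compl S D0
  exact ⟨D, hD, by rw [h, h0, neg_neg]⟩

lemma good_zero (S : Setup G P0 R) : S.Good 0 := ⟨le_rfl, by rw [map_zero]; rfl⟩

lemma rA_IK (S : Setup G P0 R) (D : Divisor K F) : rA G.A (S.IK D) = S.IA D := rfl

/-- Good divisors give good ideals. -/
theorem good_IK (S : Setup G P0 R) {D : Divisor K F} (hD : S.Good D) :
    Good S.P G.A (S.IK D) := by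
  have hinf : Infinite k := IsAlgClosed.instInfinite
  have hDK : IsDedekindDomain (K ⊗[R] S.B) := S.isDedekindDomain_K
  have hDk : IsDedekindDomain (k ⊗[R] S.B) := S.isDedekindDomain_k
  have hdeg := degree_nonneg hD.nonneg
  refine good_of_isRel S.P S.π S.π_surjective (d := (Divisor.degree D).toNat) ?_
  rw [rA_IK]
  exact S.isRel_IA hD (by omega)

lemma red_IK (S : Setup G P0 R) {D : Divisor K F} (hD : S.Good D) :
    red G.A S.π (S.IK D) = S.Ik (S.Rd.r D) := by
  unfold red
  rw [rA_IK, S.map_IA_k hD]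

/-- Linear equivalence of reductions. -/
theorem lin_red_of_redTriv (S : Setup G P0 R) {D : Divisor K F} (hD : S.Good D)
    (h : RedTriv S.Rd (cls P0 D)) :
    Lin (red G.A S.π (S.IK D)) (red G.A S.π (S.IK 0)) := by
  classical
  rw [red_IK S hD, red_IK S (good_zero S), map_zero]
  unfold cls at h
  rw [redTriv_mk_iff] at h
  obtain ⟨f, hf, hdiv⟩ := isPrincipal_iff.mp h
  refine lin_IF S.w S.evk S.isBC_k.mem S.isBC_k.inj S.isBC_k.surj hD.red_nonneg le_rfl hf ?_
  intro v hv
  have hdeg := degree_nonneg hD.nonneg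
  obtain ⟨m, hm⟩ : ∃ m : ℕ, Divisor.degree D = m := ⟨(Divisor.degree D).toNat, by omega⟩
  have h1 := DFunLike.congr_fun hdiv v
  rw [div_apply] at h1
  rw [← h1]
  change _ = (0 : Divisor k F') v + (S.Rd.r (D - Finsupp.single P0 (Divisor.degree D))) v
  rw [hm, map_sub, RatModel.r_single S.hw, Finsupp.sub_apply, Finsupp.single_eq_of_ne hv]
  simp

section Final

open Fermat.Agent.FlatGS Fermat.Agent.LatticeFlat

variable {p : ℕ} {F : Type*} {k : Type} {F' : Type*} [Field F] [Algebra Om F] [Field k] [Field F']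
  [Algebra k F'] [IsFF Om F] [IsFF k F'] [IsAlgClosed k]
variable {G : GaussData Om F k F'} {P0 : Place Om F}
variable [Algebra (Rp p) k] [Algebra (Rp p) F] [IsScalarTower (Rp p) Om F] [Algebra (Rp p) G.A]
  [IsScalarTower (Rp p) G.A Om] [Algebra (Rp p) F'] [IsScalarTower (Rp p) k F']

/-- **Functions** on the finite Galois stable subgroups of the Jacobian of a curve with a good
integral model. -/
theorem exists_functions_of_setup (S : Setup G P0 (Rp p)) (hp : p.Prime)
    (hA : G.A.LiesOverPrime p)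
    (g : GQ → SemilinearAut Om F) (hg0 : ∀ σ, g σ • P0 = P0)
    (hgb : ∀ σ a, SemilinearAut.baseAut (g σ) a = σ a) (hgB : ∀ σ, ∀ b : S.B, g σ • (b : F) = b)
    {M : Type} [AddCommGroup M] [Finite M] (ι : M →+ Pic0 Om F) (hι : Function.Injective ι)
    {act : GQ → M → M} (hact : ∀ σ x, ι (act σ x) = g σ • ι x) :
    ∃ E : Set (M → Om), E.Finite ∧
      (∀ c ∈ E, ∀ σ ∈ G.A.inertiaSubgroupIn ℚ, ∀ x, c (act σ x) = σ (c x)) ∧
      (∀ c ∈ E, ∀ x, c x ∈ G.A) ∧
      1 ∈ Submodule.span G.A E ∧ (∀ c ∈ E, ∀ d ∈ E, c * d ∈ Submodule.span G.A E) ∧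
      (∀ x y, (∀ c ∈ E, c x = c y) → x = y) ∧
      (∀ y, ∀ c ∈ E, (fun x => c (x + y)) ∈ Submodule.span G.A E) ∧
      (∀ y, RedTriv S.Rd (ι y) → ∀ c ∈ E, (fun x => c (x + y)) - c ∈
        IsLocalRing.maximalIdeal G.A • Submodule.span G.A E) := by
  classical
  have hDK : IsDedekindDomain (Om ⊗[Rp p] S.B) := S.isDedekindDomain_K
  have hDk : IsDedekindDomain (k ⊗[Rp p] S.B) := S.isDedekindDomain_k
  choose D hD hcls using fun x : M => exists_good_cls S (ι x)
  have hmem := S.isBC_K.mem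
  have hinj := S.isBC_K.inj
  have hsurj := S.isBC_K.surj
  have hlin : ∀ {D D' : Divisor Om F}, 0 ≤ D → 0 ≤ D' → cls P0 D = cls P0 D' →
      Lin (S.IK D) (S.IK D') := by
    intro D D' h0 h0' hc
    obtain ⟨f, hf, hff⟩ := (cls_eq_iff P0).mp hc
    exact lin_IF P0 S.evK hmem hinj hsurj h0 h0' hf hff
  let J : M → Ideal (Om ⊗[Rp p] S.B) := fun x => S.IK (D x)
  have hJ : ∀ x, J x ≠ ⊥ := fun x =>
    (S.isRel_IK (hD x).nonneg (hD x).apply_P0 (d := (Divisor.degree (D x)).toNat)
      (by have := degree_nonneg (hD x).nonneg; omega)).ne_bot (S.P.baseChange Om)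
  have hJinj : ∀ x y, Lin (J x) (J y) → x = y := by
    intro x y hxy
    apply hι
    rw [← hcls x, ← hcls y]
    exact of_lin_IF P0 S.evK hmem hinj hsurj (S.P.baseChange Om) (hD x).nonneg (hD y).nonneg
      (hD x).apply_P0 (hD y).apply_P0 hxy
  have hJadd : ∀ x y, Lin (J (x + y)) (J x * J y) := by
    intro x y
    change Lin (S.IK (D (x + y))) (S.IK (D x) * S.IK (D y))
    unfold Setup.IK
    rw [IF_mul P0 S.evK hmem hsurj (S.P.baseChange Om) (hD x).nonneg (hD y).nonneg
      (hD x).apply_P0 (hD y).apply_P0]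
    refine hlin (hD _).nonneg (add_nonneg (hD x).nonneg (hD y).nonneg) ?_
    rw [cls_add, hcls, hcls, hcls, map_add]
  have hgal : ∀ σ ∈ G.A.inertiaSubgroupIn ℚ, ∀ x,
      Lin ((J x).map (PoleBasis.sp S.B (galR p σ : Om →ₐ[Rp p] Om))) (J (act σ x)) := by
    intro σ _ x
    change Lin ((S.IK (D x)).map (PoleBasis.sp S.B (galR p σ : Om →ₐ[Rp p] Om)))
      (S.IK (D (act σ x)))
    rw [map_IK_smul S (g σ) (hg0 σ) (galR p σ) (fun a => (hgb σ a).symm) (hgB σ)]
    refine hlin ?_ (hD _).nonneg ?_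
    · intro v
      rw [SemilinearAut.divisor_smul_apply]
      exact (hD x).nonneg _
    · rw [← smul_cls P0 (g σ) (hg0 σ), hcls, hcls, hact]
  have hRed : ∀ y, RedTriv S.Rd (ι y) → RedEq S.P S.π J y := by
    intro y hy
    refine ⟨S.IK (D y), S.IK 0, good_IK S (hD y), good_IK S (good_zero S), ?_, ?_, ?_⟩
    · exact hlin (hD y).nonneg (hD y).nonneg rfl
    · refine hlin le_rfl (hD 0).nonneg ?_
      rw [hcls, map_zero, cls_zero]
    · apply lin_red_of_redTriv S (hD y)
      rw [hcls]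
      exact hy
  let Gσ : Set (G.A →ₐ[Rp p] G.A) := {τ | ∃ (σ : GQ) (hσ : σ ∈ G.A.inertiaSubgroupIn ℚ),
    τ = resA (mem_decomposition_of_mem_inertia hσ)}
  have hG : ∀ σ ∈ Gσ, S.π.comp σ = S.π := by
    rintro _ ⟨σ, hσ, rfl⟩
    ext a
    have h1 := (Fermat.Agent.Minkowski.sub_mem_nonunits_of_mem_inertia hσ a.2).2
    have h2 : S.π (resA (p := p) (mem_decomposition_of_mem_inertia hσ) a - a) = 0 :=
      (map_eq_zero_iff_nonunit S.π S.π_surjective).mpr h1
    rw [map_sub, sub_eq_zero] at h2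
    exact h2
  have hsurjG : ∀ c : k, ∃ a : G.A, S.π a = c ∧ ∀ σ ∈ Gσ, σ a = a := by
    intro c
    obtain ⟨a, ha, ha'⟩ := exists_inertia_fixed S.π S.π_surjective hp hA c
    refine ⟨a, ha, ?_⟩
    rintro _ ⟨σ, hσ, rfl⟩
    exact Subtype.ext (ha' σ hσ)
  obtain ⟨H, E, hE, heq, hsep, htr, hres⟩ := exists_functions_redZero S.P S.π S.π_surjective Gσ hG
    hsurjG J hJ hJinj hJadd
  have hker : RingHom.ker S.π.toRingHom = IsLocalRing.maximalIdeal G.A :=
    IsLocalRing.eq_maximalIdeal (RingHom.ker_isMaximal_of_surjective S.π.toRingHom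
      S.π_surjective)
  let ιm : (M → G.A) →ₗ[G.A] (M → Om) :=
    { toFun := fun f x => (f x : Om)
      map_add' := fun f g => rfl
      map_smul' := fun a f => rfl }
  have hmap : Submodule.span G.A (ιm '' (E : Set (M → G.A))) =
      (Subalgebra.toSubmodule H).map ιm := by
    rw [← hE, Submodule.map_span]
  have hEH : ∀ f ∈ E, f ∈ H := by
    intro f hf
    have : f ∈ Submodule.span G.A (E : Set (M → G.A)) := Submodule.subset_span hf
    rwa [hE] at this
  refine ⟨ιm '' (E : Set (M → G.A)), E.finite_toSet.image _, ?_, ?_, ?_, ?_, ?_, ?_, ?_⟩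
  · rintro _ ⟨f, hf, rfl⟩ σ hσ x
    have h1 := heq (galR p σ) (resA (mem_decomposition_of_mem_inertia hσ)) ⟨σ, hσ, rfl⟩
      (fun a => rfl) x (act σ x) (hgal σ hσ x) f hf
    exact congrArg Subtype.val h1
  · rintro _ ⟨f, hf, rfl⟩ x
    exact (f x).2
  · rw [hmap]
    exact ⟨1, H.one_mem, rfl⟩
  · rintro _ ⟨f, hf, rfl⟩ _ ⟨g, hg, rfl⟩
    rw [hmap]
    exact ⟨f * g, H.mul_mem (hEH f hf) (hEH g hg), rfl⟩
  · intro x y hxy
    apply hsep
    intro f hf
    exact Subtype.ext (hxy _ ⟨f, hf, rfl⟩)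
  · rintro y _ ⟨f, hf, rfl⟩
    rw [hmap]
    exact ⟨_, htr y f (hEH f hf), rfl⟩
  · rintro y hy _ ⟨f, hf, rfl⟩
    have h1 := Submodule.mem_map_of_mem (f := ιm) (hres y (hRed y hy) f (hEH f hf))
    rw [Submodule.map_smul'', hker, ← hmap] at h1
    exact h1

end Final

end Fermat.Agent.HopfFrame
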